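import Fermat.Prelude.Def_AlgebraicGeometry_RelPicardAlgEquivZeroCut
import Fermat.Agent.JPb.Cl
import Fermat.Agent.JMod.H1Group

/-!
# S25, block N (AE1): a family which is fibrewise algebraically equivalent to zero is classified by
a map to every clopen neighbourhood of zero
-/

set_option autoImplicit false

noncomputable section

universe u

open CategoryTheory CategoryTheory.Limits AlgebraicGeometry AlgebraicGeometry.RelPicard
open NeronModelInfra
open Fermat.Agent.JMod Fermat.Agent.JPb

namespace Fermat.Agent.JAE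

section Cl

variable {X Y : Scheme.{u}}

theorem cl_pb (f : X ⟶ Y) {M : Y.Modules} (hM : Scheme.Modules.IsInvertible M)
    (hM' : Scheme.Modules.IsInvertible ((Scheme.Modules.pullback f).obj M)) :
    cl ((Scheme.Modules.pullback f).obj M) hM' = H1.map f (cl M hM) := by
  obtain ⟨c, hc, h⟩ := isFrm_of_cl_eq_mk' hM
  rw [h, cl_pullback_mk f hc hM']
  rfl

theorem cl_un (h : Scheme.Modules.IsInvertible (SheafOfModules.unit X.ringCatSheaf)) :
    cl (SheafOfModules.unit X.ringCatSheaf : X.Modules) h = 1 := cl_unit_mk X h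

theorem cl_congr {M N : X.Modules} (hM : Scheme.Modules.IsInvertible M)
    (hN : Scheme.Modules.IsInvertible N) (e : Nonempty (M ≅ N)) : cl M hM = cl N hN :=
  (cl_eq_iff M N hM hN).mpr e

end Cl

variable {k : Type u} [Field k] {C : Scheme.{u}} {c : C ⟶ Spec (CommRingCat.of k)}
  {ε : SchemeHomOver (𝟙 (Spec (CommRingCat.of k))) c}

/-- the class of a rigidified line bundle -/
def clR {T : Scheme.{u}} {t : T ⟶ Spec (CommRingCat.of k)} (M : RigidifiedLineBundle c ε t) :
    H1 (pullback c t) := cl M.L M.isInvertible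

theorem clR_iff {T : Scheme.{u}} {t : T ⟶ Spec (CommRingCat.of k)}
    (M N : RigidifiedLineBundle c ε t) : clR M = clR N ↔ Nonempty (M.L ≅ N.L) :=
  cl_eq_iff _ _ _ _

theorem map_rig_clR {T : Scheme.{u}} {t : T ⟶ Spec (CommRingCat.of k)}
    (M : RigidifiedLineBundle c ε t) : H1.map (rigSection c t ε) (clR M) = 1 := by
  have h1 := cl_pb (rigSection c t ε) M.isInvertible (M.isInvertible.pullback _)
  rw [clR, ← h1, cl_congr _ (Scheme.Modules.isInvertible_unit T) M.rigidified]
  exact cl_un _

theorem clR_pullbackAlong {T T' : Scheme.{u}} {t : T ⟶ Spec (CommRingCat.of k)}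
    {t' : T' ⟶ Spec (CommRingCat.of k)} (M : RigidifiedLineBundle c ε t)
    (ψ : SchemeHomOver t' t) : clR (M.pullbackAlong ψ) = H1.map (baseChangeSnd c ψ) (clR M) :=
  cl_pb (baseChangeSnd c ψ) M.isInvertible _

theorem clR_unit {T : Scheme.{u}} (t : T ⟶ Spec (CommRingCat.of k)) :
    clR (RigidifiedLineBundle.unit (c := c) (ε := ε) t) = 1 := cl_un _

theorem exists_clR {T : Scheme.{u}} {t : T ⟶ Spec (CommRingCat.of k)} (h : H1 (pullback c t))
    (hr : H1.map (rigSection c t ε) h = 1) : ∃ M : RigidifiedLineBundle c ε t, clR M = h := by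
  obtain ⟨L, hL, rfl⟩ := exists_cl h
  refine ⟨⟨L, hL, ?_⟩, rfl⟩
  rw [← cl_pb _ hL (hL.pullback _)] at hr
  exact (cl_eq_iff _ _ (hL.pullback _) (Scheme.Modules.isInvertible_unit T)).mp
    (hr.trans (cl_un _).symm)

theorem rig_snd {T : Scheme.{u}} (t : T ⟶ Spec (CommRingCat.of k)) :
    rigSection c t ε ≫ pullback.snd c t = 𝟙 T := pullback.lift_snd _ _ _

/-- normalization of a class along the section -/
theorem exists_rig {T : Scheme.{u}} {t : T ⟶ Spec (CommRingCat.of k)} (h : H1 (pullback c t)) :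
    ∃ M : RigidifiedLineBundle c ε t,
      clR M = h / H1.map (pullback.snd c t) (H1.map (rigSection c t ε) h) := by
  apply exists_clR
  rw [map_div, ← H1.map_comp, rig_snd, H1.map_id, div_self']

theorem baseChangeSnd_snd {T T' : Scheme.{u}} {t : T ⟶ Spec (CommRingCat.of k)}
    {t' : T' ⟶ Spec (CommRingCat.of k)} (ψ : SchemeHomOver t' t) :
    baseChangeSnd c ψ ≫ pullback.snd c t = pullback.snd c t' ≫ ψ.1 := pullback.lift_snd _ _ _

/-- normalization commutes with base change -/
theorem map_normalize {T T' : Scheme.{u}} {t : T ⟶ Spec (CommRingCat.of k)}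
    {t' : T' ⟶ Spec (CommRingCat.of k)} (ψ : SchemeHomOver t' t) (h : H1 (pullback c t)) :
    H1.map (baseChangeSnd c ψ) (h / H1.map (pullback.snd c t) (H1.map (rigSection c t ε) h)) =
      H1.map (baseChangeSnd c ψ) h / H1.map (pullback.snd c t')
        (H1.map (rigSection c t' ε) (H1.map (baseChangeSnd c ψ) h)) := by
  rw [map_div]
  congr 1
  rw [← H1.map_comp, baseChangeSnd_snd, H1.map_comp, ← H1.map_comp ψ.1,
    ← rigSection_baseChangeSnd, H1.map_comp]

/-- the statement consumed by the assembly of S25 -/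
theorem mem_of_fibrewiseAlgEquivZero {J : Scheme.{u}} (p : J ⟶ Spec (CommRingCat.of k))
    (PP : RigidifiedLineBundle c ε p)
    (huniv : ∀ {T : Scheme.{u}} (t : T ⟶ Spec (CommRingCat.of k))
      (M : RigidifiedLineBundle c ε t),
      ∃! g : SchemeHomOver t p, Nonempty ((PP.pullbackAlong g).L ≅ M.L))
    (z : SchemeHomOver (𝟙 (Spec (CommRingCat.of k))) p)
    (hz : Nonempty ((PP.pullbackAlong z).L ≅
      (RigidifiedLineBundle.unit (c := c) (ε := ε) (𝟙 (Spec (CommRingCat.of k)))).L))
    (U : J.Opens) (hc : IsClosed (U : Set J)) (h0 : ∀ x, z.1 x ∈ U)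
    {T : Scheme.{u}} (t : T ⟶ Spec (CommRingCat.of k)) (M : RigidifiedLineBundle c ε t)
    (hM : FibrewiseAlgEquivZero M) (g : SchemeHomOver t p)
    (hg : Nonempty ((PP.pullbackAlong g).L ≅ M.L)) : ∀ x, g.1 x ∈ U := by
  intro x
  let K := AlgebraicClosure (T.residueField x)
  let s : Spec (CommRingCat.of K) ⟶ T :=
    Spec.map (CommRingCat.ofHom (algebraMap (T.residueField x) K)) ≫ T.fromSpecResidueField x
  obtain ⟨T', h, -, hgi, N, hN, t₀, t₁, e₀, e₁⟩ := hM K s
  let a := fibreAt c t s
  -- the family over `T'`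
  let τK : Spec (CommRingCat.of K) ⟶ Spec (CommRingCat.of k) := s ≫ t
  let τ : T' ⟶ Spec (CommRingCat.of k) := h ≫ τK
  let θ : pullback c τ ⟶ pullback a h :=
    pullback.lift (pullback.lift (pullback.lift (pullback.fst c τ) (pullback.snd c τ ≫ h ≫ s) (by
      rw [pullback.condition]; simp [τ, τK])) (pullback.snd c τ ≫ h) (by
      rw [pullback.lift_snd, Category.assoc])) (pullback.snd c τ) (by
      exact pullback.lift_snd _ _ _)
  let θK : pullback c τK ⟶ pullback a (𝟙 (Spec (CommRingCat.of K))) :=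
    pullback.lift (pullback.lift (pullback.lift (pullback.fst c τK) (pullback.snd c τK ≫ s) (by
      rw [pullback.condition]; simp [τK])) (pullback.snd c τK) (by
      rw [pullback.lift_snd])) (pullback.snd c τK) (by
      exact (pullback.lift_snd _ _ _).trans (Category.comp_id _).symm)
  let w : H1 (pullback c τ) := H1.map θ (cl N hN)
  obtain ⟨R, hR⟩ := exists_rig (ε := ε) w
  obtain ⟨g', hg', -⟩ := huniv τ R
  -- restriction of the family to a section of `h`
  have key : ∀ t' : SchemeHomOver (𝟙 (Spec (CommRingCat.of K))) h,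
      ∃ ψ : SchemeHomOver τK τ, ψ.1 = t'.1 ∧
        clR (R.pullbackAlong ψ) = H1.map θK (H1.map (baseChangeSnd a t') (cl N hN)) /
          H1.map (pullback.snd c τK) (H1.map (rigSection c τK ε)
            (H1.map θK (H1.map (baseChangeSnd a t') (cl N hN)))) := by
    intro t'
    let ψ : SchemeHomOver τK τ := ⟨t'.1, by
      show t'.1 ≫ h ≫ τK = τK
      rw [← Category.assoc, t'.2, Category.id_comp]⟩
    refine ⟨ψ, rfl, ?_⟩
    have h1 : baseChangeSnd c ψ ≫ θ = θK ≫ baseChangeSnd a t' := by
      apply pullback.hom_ext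
      · apply pullback.hom_ext
        · apply pullback.hom_ext
          · simp only [θ, θK, baseChangeSnd, Category.assoc, pullback.lift_fst,
              pullback.lift_snd, pullback.lift_fst_assoc, pullback.lift_snd_assoc,
              Category.comp_id]
          · simp only [θ, θK, baseChangeSnd, Category.assoc, pullback.lift_fst,
              pullback.lift_snd, pullback.lift_fst_assoc, pullback.lift_snd_assoc,
              Category.comp_id]
            show _ ≫ t'.1 ≫ h ≫ s = _
            rw [← Category.assoc t'.1, t'.2, Category.id_comp]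
        · simp only [θ, θK, baseChangeSnd, Category.assoc, pullback.lift_fst,
            pullback.lift_snd, pullback.lift_fst_assoc, pullback.lift_snd_assoc,
            Category.comp_id]
          show _ ≫ t'.1 ≫ h = _
          rw [t'.2, Category.comp_id]
      · simp only [θ, θK, baseChangeSnd, Category.assoc, pullback.lift_snd,
          pullback.lift_snd_assoc]
        rfl
    rw [clR_pullbackAlong, hR, map_normalize, ← H1.map_comp _ θ, h1, H1.map_comp]
  -- uniqueness in terms of classes
  have uniq : ∀ {S : Scheme.{u}} (σ : S ⟶ Spec (CommRingCat.of k)) (g₁ g₂ : SchemeHomOver σ p),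
      H1.map (baseChangeSnd c g₁) (clR PP) = H1.map (baseChangeSnd c g₂) (clR PP) →
      g₁ = g₂ := by
    intro S σ g₁ g₂ h12
    refine (huniv σ (PP.pullbackAlong g₂)).unique ?_ ⟨Iso.refl _⟩
    rw [← clR_iff, clR_pullbackAlong, clR_pullbackAlong, h12]
  have hPg' : H1.map (baseChangeSnd c g') (clR PP) = clR R := by
    rw [← clR_pullbackAlong, clR_iff]; exact hg'
  have hPg : H1.map (baseChangeSnd c g) (clR PP) = clR M := by
    rw [← clR_pullbackAlong, clR_iff]; exact hg
  have hPz : H1.map (baseChangeSnd c z) (clR PP) = 1 := by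
    rw [← clR_pullbackAlong, ← clR_unit (c := c) (ε := ε) (𝟙 (Spec (CommRingCat.of k))), clR_iff]
    exact hz
  -- the point `t₀`
  have eq₀ : t₀.1 ≫ g'.1 = τK ≫ z.1 := by
    obtain ⟨ψ, hψ, h1⟩ := key t₀
    have h2 : H1.map (baseChangeSnd a t₀) (cl N hN) = 1 := by
      rw [← cl_pb _ hN (hN.pullback _), cl_congr _ (Scheme.Modules.isInvertible_unit _) e₀]
      exact cl_un _
    rw [h2, map_one, map_one, map_one, div_one] at h1
    have h3 := uniq τK (postComp g' ψ) (postComp z ⟨τK, Category.comp_id _⟩) (by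
      rw [← baseChangeSnd_comp, ← baseChangeSnd_comp, H1.map_comp, H1.map_comp, hPg', hPz,
        map_one, ← clR_pullbackAlong, h1])
    have h4 := congrArg Subtype.val h3
    rw [← hψ]
    exact h4
  -- the point `t₁`
  have eq₁ : t₁.1 ≫ g'.1 = s ≫ g.1 := by
    obtain ⟨ψ, hψ, h1⟩ := key t₁
    let s' : SchemeHomOver τK t := ⟨s, rfl⟩
    have hfst : θK ≫ pullback.fst a (𝟙 _) ≫ pullback.fst (pullback.snd c t) s =
        baseChangeSnd c s' := by
      apply pullback.hom_ext
      · simp only [θK, baseChangeSnd, Category.assoc, pullback.lift_fst,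
          pullback.lift_fst_assoc, Category.comp_id]
      · simp only [θK, baseChangeSnd, Category.assoc, pullback.lift_fst, pullback.lift_snd,
          pullback.lift_fst_assoc]
        rfl
    have h2 : H1.map θK (H1.map (baseChangeSnd a t₁) (cl N hN)) =
        clR (M.pullbackAlong s') := by
      rw [← cl_pb (baseChangeSnd a t₁) hN (hN.pullback _),
        cl_congr _ ((M.isInvertible.pullback _).pullback _) e₁,
        cl_pb _ (M.isInvertible.pullback _), cl_pb _ M.isInvertible, clR_pullbackAlong,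
        ← H1.map_comp, ← H1.map_comp, Category.assoc, hfst]
      rfl
    rw [h2, map_rig_clR, map_one, div_one] at h1
    have h3 := uniq τK (postComp g' ψ) (postComp g s') (by
      rw [← baseChangeSnd_comp, ← baseChangeSnd_comp, H1.map_comp, H1.map_comp, hPg', hPg,
        ← clR_pullbackAlong, ← clR_pullbackAlong, h1])
    have h4 := congrArg Subtype.val h3
    rw [← hψ]
    exact h4
  -- `T'` is connected
  have hT' : IsIntegral T' := GeometricallyIntegral.isIntegral_of_subsingleton h
  have hcl : IsClopen ((g'.1 ⁻¹ᵁ U : T'.Opens) : Set T') :=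
    ⟨hc.preimage g'.1.continuous, (g'.1 ⁻¹ᵁ U).isOpen⟩
  let o : Spec (CommRingCat.of K) := default
  have hne : ((g'.1 ⁻¹ᵁ U : T'.Opens) : Set T').Nonempty := by
    refine ⟨t₀.1 o, ?_⟩
    show g'.1 (t₀.1 o) ∈ U
    rw [← Scheme.Hom.comp_apply, eq₀, Scheme.Hom.comp_apply]
    exact h0 _
  have huni := hcl.eq_univ hne
  have h5 : t₁.1 o ∈ ((g'.1 ⁻¹ᵁ U : T'.Opens) : Set T') := by rw [huni]; trivial
  have h6 : g'.1 (t₁.1 o) ∈ U := h5
  rw [← Scheme.Hom.comp_apply, eq₁, Scheme.Hom.comp_apply] at h6
  have h7 : s o = x := by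
    rw [Scheme.Hom.comp_apply]
    exact Scheme.fromSpecResidueField_apply _ _
  rwa [h7] at h6

end Fermat.Agent.JAE

end
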