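import Fermat.Prelude.Def_AlgebraicGeometry_RelPicardAlgEquivZeroCut

/-!
# S25, block N (AE2): a rigidified line bundle over a geometrically integral pointed base, trivial
at the base point, is fibrewise algebraically equivalent to zero
-/

set_option autoImplicit false

noncomputable section

universe u

open CategoryTheory CategoryTheory.Limits AlgebraicGeometry AlgebraicGeometry.RelPicard
open NeronModelInfra

namespace Fermat.Agent.JAE

variable {R : Type u} [CommRing R] {C : Scheme.{u}} {c : C ⟶ Spec (CommRingCat.of R)}
  {ε : SchemeHomOver (𝟙 (Spec (CommRingCat.of R))) c}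

theorem fibrewiseAlgEquivZero_of_geomIntegral {J : Scheme.{u}} (p : J ⟶ Spec (CommRingCat.of R))
    [LocallyOfFiniteType p] [GeometricallyIntegral p] (PP : RigidifiedLineBundle c ε p)
    (z : SchemeHomOver (𝟙 (Spec (CommRingCat.of R))) p)
    (hz : Nonempty ((PP.pullbackAlong z).L ≅
      (RigidifiedLineBundle.unit (c := c) (ε := ε) (𝟙 (Spec (CommRingCat.of R)))).L)) :
    FibrewiseAlgEquivZero PP := by
  intro K _ _ s
  let a := fibreAt c p s
  let h : pullback p (s ≫ p) ⟶ Spec (CommRingCat.of K) := pullback.snd p (s ≫ p)
  -- the map to `C × J`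
  let q : pullback a h ⟶ pullback c p :=
    pullback.lift (pullback.fst a h ≫ pullback.fst (pullback.snd c p) s ≫ pullback.fst c p)
      (pullback.snd a h ≫ pullback.fst p (s ≫ p)) (by
        simp only [Category.assoc]
        rw [pullback.condition (f := c) (g := p), pullback.condition (f := p) (g := s ≫ p)]
        rw [reassoc_of% (pullback.condition (f := pullback.snd c p) (g := s))]
        rw [← reassoc_of% (pullback.condition (f := a) (g := h))]
        rfl)
  -- the two points
  let t₀ : SchemeHomOver (𝟙 (Spec (CommRingCat.of K))) h :=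
    ⟨pullback.lift ((s ≫ p) ≫ z.1) (𝟙 _) (by
      rw [Category.assoc, z.2, Category.comp_id, Category.id_comp]), pullback.lift_snd _ _ _⟩
  let t₁ : SchemeHomOver (𝟙 (Spec (CommRingCat.of K))) h :=
    ⟨pullback.lift s (𝟙 _) (by rw [Category.id_comp]), pullback.lift_snd _ _ _⟩
  obtain ⟨e⟩ := hz
  have h0 : baseChangeSnd a t₀ ≫ q =
      pullback.lift (pullback.fst a (𝟙 _) ≫ pullback.fst (pullback.snd c p) s ≫ pullback.fst c p)
        (pullback.snd a (𝟙 _) ≫ s ≫ p) (by
          simp only [Category.assoc, Category.comp_id]
          rw [pullback.condition (f := c) (g := p)]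
          rw [reassoc_of% (pullback.condition (f := pullback.snd c p) (g := s))]
          rw [← reassoc_of% (pullback.condition (f := a) (g := 𝟙 _))]
          rfl) ≫ baseChangeSnd c z := by
    apply pullback.hom_ext
    · simp only [q, baseChangeSnd, Category.assoc, pullback.lift_fst, pullback.lift_fst_assoc,
        Category.comp_id]
    · simp only [q, t₀, baseChangeSnd, Category.assoc, pullback.lift_snd, pullback.lift_fst,
        pullback.lift_snd_assoc]
  have h1 : baseChangeSnd a t₁ ≫ q =
      pullback.fst a (𝟙 _) ≫ pullback.fst (pullback.snd c p) s := by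
    apply pullback.hom_ext
    · simp only [q, baseChangeSnd, Category.assoc, pullback.lift_fst, pullback.lift_fst_assoc,
        Category.comp_id]
    · simp only [q, t₁, baseChangeSnd, Category.assoc, pullback.lift_snd, pullback.lift_fst,
        pullback.lift_snd_assoc]
      rw [pullback.condition (f := pullback.snd c p) (g := s)]
      rw [← reassoc_of% (pullback.condition (f := a) (g := 𝟙 _))]
      rfl
  refine ⟨pullback p (s ≫ p), h, inferInstance, inferInstance,
    (Scheme.Modules.pullback q).obj PP.L, PP.isInvertible.pullback q, t₀, t₁, ⟨?_⟩, ⟨?_⟩⟩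
  · exact (Scheme.Modules.pullbackComp _ _).app PP.L ≪≫
      (Scheme.Modules.pullbackCongr h0).app PP.L ≪≫
      ((Scheme.Modules.pullbackComp _ _).app PP.L).symm ≪≫
      (Scheme.Modules.pullback _).mapIso e ≪≫
      Scheme.Modules.pullbackUnitIso _
  · exact (Scheme.Modules.pullbackComp _ _).app PP.L ≪≫
      (Scheme.Modules.pullbackCongr h1).app PP.L ≪≫
      ((Scheme.Modules.pullbackComp _ _).app PP.L).symm

/-- a family classified by a map to `J` is fibrewise algebraically equivalent to zero -/
theorem fibrewiseAlgEquivZero_of_factor {J : Scheme.{u}} (p : J ⟶ Spec (CommRingCat.of R))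
    [LocallyOfFiniteType p] [GeometricallyIntegral p] (PP : RigidifiedLineBundle c ε p)
    (z : SchemeHomOver (𝟙 (Spec (CommRingCat.of R))) p)
    (hz : Nonempty ((PP.pullbackAlong z).L ≅
      (RigidifiedLineBundle.unit (c := c) (ε := ε) (𝟙 (Spec (CommRingCat.of R)))).L))
    {T : Scheme.{u}} (t : T ⟶ Spec (CommRingCat.of R)) (g : SchemeHomOver t p)
    (M : RigidifiedLineBundle c ε t) (h : Nonempty ((PP.pullbackAlong g).L ≅ M.L)) :
    FibrewiseAlgEquivZero M :=
  FibrewiseAlgEquivZero.congr h
    ((fibrewiseAlgEquivZero_of_geomIntegral p PP z hz).pullback g)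

end Fermat.Agent.JAE

end
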